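import Fermat.Agent.S48.ModL2.Geo
import Fermat.Agent.S48.ES1.Main
import Fermat.Agent.S48.Igusa1.Main

/-!
# S48 / MODL2 : `StmtGeo` (final assembly of the geometric half)

`Ops1 M` from `ES1.heckePair`, the arithmetic relations from `ES1.unram`, `ES1.ES` fed with
`Igusa1.stmtInjFull`, `Igusa1.stmtFracFull`; the datum from `nonempty_esDatum1` (BETTI + KUM).
-/

set_option autoImplicit false

open ModularCurve AlgebraicCurve CongruenceSubgroup

noncomputable section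

namespace Fermat.Agent.S48

open Fermat.Agent.GAL Fermat.Agent.GAL.Tors Fermat.Agent.S24 Fermat.Agent.S48.Full

variable {M : ℕ} [NeZero M]

/-- The contract `Ops1` from a family of abstract Hecke pairs (`P` is kept abstract: unfolding the
concrete `ES1.heckePair` is too expensive for the kernel). -/
def opsOf (P : ∀ p : HK.GoodPrime M, ES1.HeckePair (F1 Kbar M) p.1)
    (hmer : ∀ (p : HK.GoodPrime M) (f : F1 Kbar M)
      (h1 : coeffMap iota (((P p).D f : F1 Kbar M) : LaurentSeries Kbar) ∈ MerQ)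
      (h2 : coeffMap iota (f : LaurentSeries Kbar) ∈ MerQ),
      PsiQ ⟨_, h1⟩ = compSL (HK.diaRep M p.unit) (PsiQ ⟨_, h2⟩)) : Ops1 M where
  Np p := (P p).N
  Dp p := (((P p).D : F1 Kbar M →ₐ[Kbar] F1 Kbar M) : F1 Kbar M →* F1 Kbar M)
  Np_pres p m u hu := (P p).N_kummer m u hu
  Dp_pres p _ u hu := (P p).D_kummer u hu
  Np_series p _ ζ hζ f := (P p).N_formula ζ hζ f
  Dp_mer p f h1 h2 := hmer p f h1 h2
  Np_gal p σ f := (P p).N_conj p.2.1 σ f
  Dp_gal p σ f := (P p).D_conj σ f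

theorem opsOf_TV (P : ∀ p : HK.GoodPrime M, ES1.HeckePair (F1 Kbar M) p.1) (hmer) (ℓ : ℕ)
    (p : HK.GoodPrime M) : (opsOf P hmer).TV ℓ p = (P p).T ℓ := rfl

theorem opsOf_RV (P : ∀ p : HK.GoodPrime M, ES1.HeckePair (F1 Kbar M) p.1) (hmer) (ℓ : ℕ)
    (p : HK.GoodPrime M) : (opsOf P hmer).RV ℓ p = (P p).R ℓ := rfl

variable (M)

theorem heckePair_mer (p : HK.GoodPrime M) (f : F1 Kbar M)
    (h1 : coeffMap iota (((ES1.heckePair M p).D f : F1 Kbar M) : LaurentSeries Kbar) ∈ MerQ)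
    (h2 : coeffMap iota (f : LaurentSeries Kbar) ∈ MerQ) :
    PsiQ ⟨_, h1⟩ = compSL (HK.diaRep M p.unit) (PsiQ ⟨_, h2⟩) := ES1.PsiQ_D p f

/-- The operators of block ES1, in the form of the contract `Ops1`. -/
def ops1 : Ops1 M := opsOf (ES1.heckePair M) (heckePair_mer M)

theorem ops1_arith (hneat : 4 ∣ M ∨ 9 ∣ M) {ℓ : ℕ} (hℓ : ℓ.Prime) : (ops1 M).Arith ℓ where
  unram p hp A hA σ hσ x :=
    ES1.unram (Igusa1.stmtInjFull M hneat) (Igusa1.stmtFracFull M) hℓ p hp A hA σ hσ x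
  ES p hp A hA σ hσ x := by
    rw [ops1, opsOf_TV, opsOf_RV]
    exact ES1.ES (Igusa1.stmtInjFull M hneat) (Igusa1.stmtFracFull M) hℓ p hp A hA σ hσ x

/-- **GEO**: the mod `ℓ` Eichler-Shimura datum exists at every neat level. -/
theorem stmtGeo : StmtGeo := by
  intro M ℓ _ hM hℓ _
  exact nonempty_esDatum1 (ops1 M) hℓ (ops1_arith M hM hℓ)

end Fermat.Agent.S48
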