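import Fermat.Agent.S48.Contracts

/-!
# S48 / MODL2 : the abstract mod `ℓ` Eichler-Shimura datum of level `Γ₁(M)`

`ESDatum1 M ℓ` is what the geometric blocks (FULL, IGUSA1, KUM, ES1, BETTI) deliver for a *neat*
level `M` (`4 ∣ M` or `9 ∣ M`); block ASM (pure algebra) proves `StmtGeo → StmtModL2`.

* Betti part: a lattice `ℤ^r` (`= Hom_par(Γ₁(M), ℤ)`) with commuting integral matrices `TΛ p`
  (`T_p`) and `RΛ p` (`⟨p⟩`), and an injective equivariant period map `S₂(Γ₁(M)) → ℂ^r`.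
* Galois part: a finite abelian group `V` (`= KV ℚ̄ (F₁ ℚ̄ M) ℓ`, the Kummer model of `J₁(M)[ℓ]`)
  with an action of `G_ℚ` and operators `T p`, `R p` commuting with it, an injective equivariant map
  `(ℤ/ℓ)^r → V`, unramified outside `M ℓ`, with `σ² - T_p σ + p ⟨p⟩ = 0` for Frobenius elements.
-/

set_option autoImplicit false

open CongruenceSubgroup

noncomputable section

namespace Fermat.Agent.S48

/-- Mod `ℓ` Eichler-Shimura datum of level `Γ₁(M)`. -/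
structure ESDatum1 (M ℓ : ℕ) [NeZero M] where
  r : ℕ
  TΛ : HK.GoodPrime M → Matrix (Fin r) (Fin r) ℤ
  RΛ : HK.GoodPrime M → Matrix (Fin r) (Fin r) ℤ
  TT_comm : ∀ p q, Commute (TΛ p) (TΛ q)
  TR_comm : ∀ p q, Commute (TΛ p) (RΛ q)
  RR_comm : ∀ p q, Commute (RΛ p) (RΛ q)
  per : CuspForm (Gamma1 M) 2 →ₗ[ℂ] (Fin r → ℂ)
  per_injective : Function.Injective per
  per_T : ∀ (p : HK.GoodPrime M) (f : CuspForm (Gamma1 M) 2),
    per (HK.heckeT 2 p f) = ((TΛ p).map (Int.castRingHom ℂ)).mulVec (per f)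
  per_R : ∀ (p : HK.GoodPrime M) (f : CuspForm (Gamma1 M) 2),
    per (HK.diamond 2 p.unit f) = ((RΛ p).map (Int.castRingHom ℂ)).mulVec (per f)
  V : Type
  instV : AddCommGroup V
  instA : DistribMulAction GQ V
  finV : Finite V
  T : HK.GoodPrime M → V →+ V
  R : HK.GoodPrime M → V →+ V
  e : (Fin r → ZMod ℓ) →+ V
  e_injective : Function.Injective e
  e_T : ∀ (p : HK.GoodPrime M) (x : Fin r → ZMod ℓ),
    e (((TΛ p).map (Int.castRingHom (ZMod ℓ))).mulVec x) = T p (e x)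
  e_R : ∀ (p : HK.GoodPrime M) (x : Fin r → ZMod ℓ),
    e (((RΛ p).map (Int.castRingHom (ZMod ℓ))).mulVec x) = R p (e x)
  torsion : ∀ x : V, ℓ • x = 0
  T_smul : ∀ (p : HK.GoodPrime M) (σ : GQ) (x : V), T p (σ • x) = σ • T p x
  R_smul : ∀ (p : HK.GoodPrime M) (σ : GQ) (x : V), R p (σ • x) = σ • R p x
  stab : ∀ x : V, ∃ F : IntermediateField ℚ (AlgebraicClosure ℚ),
    FiniteDimensional ℚ F ∧ ∀ σ : GQ, (∀ y ∈ F, σ y = y) → σ • x = x
  unram : ∀ p : HK.GoodPrime M, p.1 ≠ ℓ →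
    ∀ A : ValuationSubring (AlgebraicClosure ℚ), A.LiesOverPrime p.1 →
      ∀ σ ∈ A.inertiaSubgroupIn ℚ, ∀ x : V, σ • x = x
  ES : ∀ p : HK.GoodPrime M, p.1 ≠ ℓ →
    ∀ A : ValuationSubring (AlgebraicClosure ℚ), A.LiesOverPrime p.1 →
      ∀ σ : GQ, A.IsFrobeniusAt σ p.1 → ∀ x : V,
        σ • σ • x - T p (σ • x) + p.1 • R p x = 0

attribute [instance] ESDatum1.instV ESDatum1.instA ESDatum1.finV

/-- **Contract GEO**: the datum exists for every neat level. -/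
def StmtGeo : Prop :=
  ∀ (M ℓ : ℕ) [NeZero M], (4 ∣ M ∨ 9 ∣ M) → ℓ.Prime → 5 ≤ ℓ → Nonempty (ESDatum1 M ℓ)

end Fermat.Agent.S48
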