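import Fermat.Agent.S48.ModL2.Datum
import Fermat.Agent.S48.Full.F1Defs
import Fermat.Agent.GAL.Tors.Mer
import Fermat.Agent.GAL.KVGalois

/-!
# S48 / MODL2 : the contract of block ES1 (operators `N_p`, `⟨p⟩` on `F₁(M)` over `ℚ̄`)

`Ops1 M` : the multiplicative operators on `F1 Kbar M` with their series / analytic descriptions
(consumed by KUM) and Galois equivariance; `Ops1.Arith O ℓ` : unramifiedness and the
Eichler-Shimura relation on `V = KV Kbar (F1 Kbar M) ℓ`.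
`StmtES1` is what block ES1 delivers; `ModL2/Geo.lean` proves
`StmtES1 → (∀ neat M, StmtInj1 M) → StmtGeo` using BETTI and KUM.
-/

set_option autoImplicit false

open ModularCurve AlgebraicCurve
open scoped MatrixGroups

noncomputable section

namespace Fermat.Agent.S48

open Fermat.Agent.GAL Fermat.Agent.GAL.Tors Fermat.Agent.S24 Fermat.Agent.S48.Full

/-- The operators `N_p` and `⟨p⟩` on the function field of `X₁(M)` over `ℚ̄`. -/
structure Ops1 (M : ℕ) [NeZero M] where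
  /-- `N_p u = (⟨p⟩u)(q^p) ∏_{i<p} u(ζ^i q^{1/p})` -/
  Np : HK.GoodPrime M → (F1 Kbar M →* F1 Kbar M)
  /-- `⟨p⟩ u = u ∘ δ`, `δ ∈ Γ₀(M)` with lower right entry `≡ p` -/
  Dp : HK.GoodPrime M → (F1 Kbar M →* F1 Kbar M)
  Np_pres : ∀ (p : HK.GoodPrime M) (m : ℕ), ∀ u ∈ kummerUnits Kbar (F1 Kbar M) m,
    Units.map (Np p) u ∈ kummerUnits Kbar (F1 Kbar M) m
  Dp_pres : ∀ (p : HK.GoodPrime M) (m : ℕ), ∀ u ∈ kummerUnits Kbar (F1 Kbar M) m,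
    Units.map (Dp p) u ∈ kummerUnits Kbar (F1 Kbar M) m
  /-- the series formula -/
  Np_series : ∀ (p : HK.GoodPrime M) [NeZero p.1] (ζ : Kbar), IsPrimitiveRoot ζ p.1 →
    ∀ f : F1 Kbar M,
      qExpand Kbar p.1 ((Np p f : F1 Kbar M) : LaurentSeries Kbar) =
        qExpand Kbar p.1 (qExpand Kbar p.1 ((Dp p f : F1 Kbar M) : LaurentSeries Kbar)) *
          ∏ i ∈ Finset.range p.1, twistFun (ζ ^ i) (f : LaurentSeries Kbar)
  /-- the analytic description of `⟨p⟩` -/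
  Dp_mer : ∀ (p : HK.GoodPrime M) (f : F1 Kbar M)
    (h1 : coeffMap iota ((Dp p f : F1 Kbar M) : LaurentSeries Kbar) ∈ MerQ)
    (h2 : coeffMap iota (f : LaurentSeries Kbar) ∈ MerQ),
      PsiQ ⟨_, h1⟩ = compSL (HK.diaRep M p.unit) (PsiQ ⟨_, h2⟩)
  Np_gal : ∀ (p : HK.GoodPrime M) (σ : GQ) (f : F1 Kbar M),
    Np p (arithmeticRingAut (F1₀ M) σ f) = arithmeticRingAut (F1₀ M) σ (Np p f)
  Dp_gal : ∀ (p : HK.GoodPrime M) (σ : GQ) (f : F1 Kbar M),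
    Dp p (arithmeticRingAut (F1₀ M) σ f) = arithmeticRingAut (F1₀ M) σ (Dp p f)

namespace Ops1

variable {M : ℕ} [NeZero M] (O : Ops1 M)

/-- `T_p` on the Kummer model. -/
def TV (ℓ : ℕ) (p : HK.GoodPrime M) : KV Kbar (F1 Kbar M) ℓ →+ KV Kbar (F1 Kbar M) ℓ :=
  KV.map (Units.map (O.Np p)) (O.Np_pres p ℓ)

/-- `⟨p⟩` on the Kummer model. -/
def RV (ℓ : ℕ) (p : HK.GoodPrime M) : KV Kbar (F1 Kbar M) ℓ →+ KV Kbar (F1 Kbar M) ℓ :=
  KV.map (Units.map (O.Dp p)) (O.Dp_pres p ℓ)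

theorem TV_mk (ℓ : ℕ) (p : HK.GoodPrime M) (u : kummerUnits Kbar (F1 Kbar M) ℓ) :
    O.TV ℓ p (KV.mk u) = KV.mk ⟨Units.map (O.Np p) u, O.Np_pres p ℓ u u.2⟩ := rfl

theorem RV_mk (ℓ : ℕ) (p : HK.GoodPrime M) (u : kummerUnits Kbar (F1 Kbar M) ℓ) :
    O.RV ℓ p (KV.mk u) = KV.mk ⟨Units.map (O.Dp p) u, O.Dp_pres p ℓ u u.2⟩ := rfl

theorem TV_smul (ℓ : ℕ) (p : HK.GoodPrime M) (σ : GQ) (x : KV Kbar (F1 Kbar M) ℓ) :
    O.TV ℓ p (σ • x) = σ • O.TV ℓ p x := by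
  obtain ⟨u, rfl⟩ := KV.mk_surjective x
  rw [TV_mk, KV.galois_smul_mk, KV.galois_smul_mk, TV_mk]
  congr 1
  apply Subtype.ext
  apply Units.ext
  exact O.Np_gal p σ _

theorem RV_smul (ℓ : ℕ) (p : HK.GoodPrime M) (σ : GQ) (x : KV Kbar (F1 Kbar M) ℓ) :
    O.RV ℓ p (σ • x) = σ • O.RV ℓ p x := by
  obtain ⟨u, rfl⟩ := KV.mk_surjective x
  rw [RV_mk, KV.galois_smul_mk, KV.galois_smul_mk, RV_mk]
  congr 1
  apply Subtype.ext
  apply Units.ext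
  exact O.Dp_gal p σ _

/-- Unramifiedness and the Eichler-Shimura relation on `V = KV Kbar (F1 Kbar M) ℓ`. -/
structure Arith (ℓ : ℕ) : Prop where
  unram : ∀ p : HK.GoodPrime M, p.1 ≠ ℓ →
    ∀ A : ValuationSubring (AlgebraicClosure ℚ), A.LiesOverPrime p.1 →
      ∀ σ ∈ A.inertiaSubgroupIn ℚ, ∀ x : KV Kbar (F1 Kbar M) ℓ, σ • x = x
  ES : ∀ p : HK.GoodPrime M, p.1 ≠ ℓ →
    ∀ A : ValuationSubring (AlgebraicClosure ℚ), A.LiesOverPrime p.1 →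
      ∀ σ : GQ, A.IsFrobeniusAt σ p.1 → ∀ x : KV Kbar (F1 Kbar M) ℓ,
        σ • σ • x - O.TV ℓ p (σ • x) + p.1 • O.RV ℓ p x = 0

end Ops1

open Fermat.Agent.GAL.Gauss in
/-- **NORM for a subfield `F` of `K((t))`** and a valuation ring `A` of `K`: every non zero element of
`F` is `c P / Q` with `c` a non zero constant and `P, Q ∈ F` honest `A`-integral series with non zero
reduction. -/
def NormAt {K : Type} [Field K] (A : ValuationSubring K)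
    (F : IntermediateField K (LaurentSeries K)) : Prop :=
  ∀ x : F, x ≠ 0 → ∃ (c : K) (P Q : LaurentSeries ↥A), c ≠ 0 ∧ iA A P ∈ F ∧ iA A Q ∈ F ∧
    pA A P ≠ 0 ∧ pA A Q ≠ 0 ∧ iA A Q * (x : LaurentSeries K) = HahnSeries.C c * iA A P

/-- Second contract of block IGUSA1 (from `Igusa1.normalise_frac` for `FFullC`: there `Q` lies in
`K(j(t^M)) ⊆ F1`, so `P = Q x / c ∈ F1` as well). -/
def StmtNorm1 (M : ℕ) [NeZero M] : Prop :=
  ∀ A : ValuationSubring (AlgebraicClosure ℚ), ((M : ℕ) : IsLocalRing.ResidueField ↥A) ≠ 0 →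
    NormAt A (F1 (AlgebraicClosure ℚ) M)

/-- **Contract OPS** (first half of block ES1): the operators exist. -/
def StmtOps1 : Prop := ∀ (M : ℕ) [NeZero M], (4 ∣ M ∨ 9 ∣ M) → Nonempty (Ops1 M)

/-- **Contract ES1.** -/
def StmtES1 : Prop :=
  ∀ (M : ℕ) [NeZero M], (4 ∣ M ∨ 9 ∣ M) → StmtInj1 M → StmtNorm1 M →
    ∃ O : Ops1 M, ∀ ℓ : ℕ, ℓ.Prime → O.Arith ℓ

end Fermat.Agent.S48
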