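import Fermat.Agent.S48.Kum.Main

/-!
# S48 / MODL2 : assembly of `StmtGeo` from BETTI, KUM, ES1 and INJ
-/

set_option autoImplicit false

open ModularCurve AlgebraicCurve CongruenceSubgroup

noncomputable section

namespace Fermat.Agent.S48

open Fermat.Agent.GAL Fermat.Agent.S24 Fermat.Agent.S48.Full Fermat.Agent.S48.Betti

/-- The datum attached to operators `O` satisfying the arithmetic relations. -/
theorem nonempty_esDatum1 {M : ℕ} [NeZero M] (O : Ops1 M) {ℓ : ℕ} (hℓ : ℓ.Prime)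
    (hA : O.Arith ℓ) : Nonempty (ESDatum1 M ℓ) := by
  have : NeZero ℓ := ⟨hℓ.ne_zero⟩
  obtain ⟨hfin, e, he, heT, heR⟩ := Kum.exists_e O ℓ
  exact ⟨{
    r := bettiRank1 M
    TΛ := bettiT1 M
    RΛ := fun p => bettiD1 M p.unit
    TT_comm := bettiT1_comm M
    TR_comm := fun p q => bettiT1_bettiD1_comm M p q.unit
    RR_comm := fun p q => bettiD1_comm M p.unit q.unit
    per := bettiPer1 M
    per_injective := bettiPer1_injective M
    per_T := bettiPer1_T M
    per_R := fun p => bettiPer1_D M p.unit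
    V := KV Kbar (F1 Kbar M) ℓ
    instV := inferInstance
    instA := instGaloisKV (F1₀ M) ℓ
    finV := hfin
    T := O.TV ℓ
    R := O.RV ℓ
    e := e
    e_injective := he
    e_T := heT
    e_R := heR
    torsion := KV.nsmul_eq_zero
    T_smul := O.TV_smul ℓ
    R_smul := O.RV_smul ℓ
    stab := KV.exists_stab (F1₀ M) ℓ
    unram := hA.unram
    ES := hA.ES }⟩

/-- **GEO.** -/
theorem stmtGeo_of (hES : StmtES1)
    (hInj : ∀ (M : ℕ) [NeZero M], (4 ∣ M ∨ 9 ∣ M) → StmtInj1 M)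
    (hNorm : ∀ (M : ℕ) [NeZero M], (4 ∣ M ∨ 9 ∣ M) → StmtNorm1 M) : StmtGeo := by
  intro M ℓ _ hM hℓ _
  obtain ⟨O, hO⟩ := hES M hM (hInj M hM) (hNorm M hM)
  exact nonempty_esDatum1 O hℓ (hO ℓ hℓ)

end Fermat.Agent.S48
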